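import Mathlib
import Fermat.Prelude.Def_ModularCurve_X0ModL
import Fermat.Prelude.Def_AlgebraicCurve_DivisorClassGroup
import Fermat.Prelude.Def_FLTPrelim_Ramification
import Fermat.Prelude.Def_EllipticCurve_FrobeniusTrace

/-!
# Project GR: shared definitions

* `FF K N`: the function field `K(j(q^d) : d ∣ N)` of `X₀(N)` inside `K((q))`.
* `kummerSubgroup K N n`, `IsKummer`: functions all of whose orders are divisible by `n`.
* formal operators on Laurent series: `scaleHom c` (`t ↦ c t`), `Uop ℓ` (`∑ a_n q^n ↦ ∑ a_{ℓ n} q^n`),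
  `normT ℓ ζ` (`u ↦ ∏_j u(ζ^j q^{1/ℓ})`), `heckeMulT ℓ ζ` (`u ↦ u(q^ℓ) ∏_j u(ζ^j q^{1/ℓ})`).
* integrality with respect to a valuation subring: `IsInt`, `Cong`, `IsPrim`.
-/

set_option autoImplicit false

noncomputable section

open ModularCurve AlgebraicCurve

namespace Fermat.Agent.GR

section FunctionField

variable (K : Type*) [Field K] (N : ℕ)

/-- The function field of `X₀(N)` over `K`, inside `K((q))`. -/
abbrev FF : IntermediateField K (LaurentSeries K) := modularFunctionFieldFullC K N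

/-- The group of nonzero functions all of whose orders are divisible by `n`. -/
def kummerSubgroup (n : ℕ) : Subgroup (FF K N)ˣ where
  carrier := {u | ∀ v : Place K (FF K N), (n : ℤ) ∣ v.ord (u : FF K N)}
  mul_mem' := by
    intro a b ha hb v
    rw [Units.val_mul, Place.ord_mul v a.ne_zero b.ne_zero]
    exact dvd_add (ha v) (hb v)
  one_mem' := by
    intro v
    simp
  inv_mem' := by
    intro a ha v
    have h : v.ord ((a : FF K N) * ((a⁻¹ : (FF K N)ˣ) : FF K N)) = 0 := by
      rw [Units.mul_inv, Place.ord_one]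
    rw [Place.ord_mul v a.ne_zero (a⁻¹).ne_zero] at h
    have h2 : v.ord ((a⁻¹ : (FF K N)ˣ) : FF K N) = -v.ord (a : FF K N) := by linarith
    rw [h2]
    exact (ha v).neg_right

variable {K N}

/-- `u : K((q))` is a nonzero element of the function field all of whose orders are divisible
by `n`. -/
def IsKummer (n : ℕ) (u : LaurentSeries K) : Prop :=
  u ≠ 0 ∧ ∃ hu : u ∈ FF K N, ∀ v : Place K (FF K N), (n : ℤ) ∣ v.ord (⟨u, hu⟩ : FF K N)

/-- `u` and `u'` differ by an `n`-th power of the function field. -/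
def KummerEquiv (N n : ℕ) (u u' : LaurentSeries K) : Prop :=
  ∃ z ∈ FF K N, z ≠ 0 ∧ u' = u * z ^ n

end FunctionField

section Formal

variable {Λ : Type*} [CommRing Λ]

/-- The substitution `t ↦ c t` on Laurent series, as a function. -/
def scaleFun (c : Λˣ) (f : LaurentSeries Λ) : LaurentSeries Λ where
  coeff n := ((c ^ n : Λˣ) : Λ) * f.coeff n
  isPWO_support' := f.isPWO_support.mono (by
    intro n hn
    simp only [Function.mem_support, ne_eq] at hn
    exact fun h => hn (by rw [h, mul_zero]))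

@[simp] theorem scaleFun_coeff (c : Λˣ) (f : LaurentSeries Λ) (n : ℤ) :
    (scaleFun c f).coeff n = ((c ^ n : Λˣ) : Λ) * f.coeff n := rfl

theorem scaleFun_support (c : Λˣ) (f : LaurentSeries Λ) :
    (scaleFun c f).support = f.support := by
  ext n
  simp only [HahnSeries.mem_support, scaleFun_coeff, ne_eq]
  rw [Units.mul_right_eq_zero]

/-- The substitution `t ↦ c t` on Laurent series. -/
def scaleHom (c : Λˣ) : LaurentSeries Λ →+* LaurentSeries Λ where
  toFun f := scaleFun c f
  map_one' := by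
    ext n
    simp only [scaleFun_coeff, HahnSeries.coeff_one]
    split_ifs with h
    · subst h; simp
    · simp
  map_zero' := by
    ext n
    simp
  map_add' f g := by
    ext n
    simp [mul_add]
  map_mul' f g := by
    ext n
    simp only [scaleFun_coeff, HahnSeries.coeff_mul, scaleFun_support, Finset.mul_sum]
    refine Finset.sum_congr rfl ?_
    intro ij hij
    have h : ij.1 + ij.2 = n := (Finset.mem_antidiagonal.mp hij).2.2
    rw [← h, zpow_add, Units.val_mul]
    ring

@[simp] theorem scaleHom_coeff (c : Λˣ) (f : LaurentSeries Λ) (n : ℤ) :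
    (scaleHom c f).coeff n = ((c ^ n : Λˣ) : Λ) * f.coeff n := rfl

theorem bddBelow_support_comp_mul (ℓ : ℕ) [NeZero ℓ] (h : LaurentSeries Λ) :
    BddBelow (Function.support fun n : ℤ => h.coeff ((ℓ : ℤ) * n)) := by
  refine ⟨min h.order 0, ?_⟩
  intro n hn
  by_contra hlt
  rw [not_le] at hlt
  apply hn
  have hn0 : n < 0 := lt_of_lt_of_le hlt (min_le_right _ _)
  have hnm : n < h.order := lt_of_lt_of_le hlt (min_le_left _ _)
  have hℓ : (1 : ℤ) ≤ ℓ := by exact_mod_cast Nat.pos_of_ne_zero (NeZero.ne ℓ)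
  exact HahnSeries.coeff_eq_zero_of_lt_order (by nlinarith)

/-- The operator `∑ a_n q^n ↦ ∑ a_{ℓ n} q^n`. -/
def Uop (ℓ : ℕ) [NeZero ℓ] (h : LaurentSeries Λ) : LaurentSeries Λ :=
  HahnSeries.ofSuppBddBelow (fun n : ℤ => h.coeff ((ℓ : ℤ) * n)) (bddBelow_support_comp_mul ℓ h)

@[simp] theorem Uop_coeff (ℓ : ℕ) [NeZero ℓ] (h : LaurentSeries Λ) (n : ℤ) :
    (Uop ℓ h).coeff n = h.coeff ((ℓ : ℤ) * n) := rfl

/-- `u ↦ ∏_{j < ℓ} u(ζ^j q^{1/ℓ})` (a series in `q`). -/
def normT (ℓ : ℕ) [NeZero ℓ] (ζ : Λˣ) (u : LaurentSeries Λ) : LaurentSeries Λ :=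
  Uop ℓ (∏ j ∈ Finset.range ℓ, scaleHom (ζ ^ j) u)

/-- The multiplicative Hecke operator `u ↦ u(q^ℓ) ∏_{j < ℓ} u(ζ^j q^{1/ℓ})` (`ℓ ∤ N`). -/
def heckeMulT (ℓ : ℕ) [NeZero ℓ] (ζ : Λˣ) (u : LaurentSeries Λ) : LaurentSeries Λ :=
  qExpand Λ ℓ u * normT ℓ ζ u

end Formal

section Galois

variable {K Ω : Type*} [Field K] [Field Ω] [Algebra K Ω]

/-- The coefficientwise action of a field automorphism on Laurent series. -/
def gal (σ : Ω ≃ₐ[K] Ω) : LaurentSeries Ω →+* LaurentSeries Ω := coeffMap (σ : Ω →+* Ω)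

@[simp] theorem gal_coeff (σ : Ω ≃ₐ[K] Ω) (f : LaurentSeries Ω) (n : ℤ) :
    (gal σ f).coeff n = σ (f.coeff n) := rfl

end Galois

section Integrality

variable {Ω : Type*} [Field Ω] (A : ValuationSubring Ω)

/-- all coefficients lie in the valuation ring `A`. -/
def IsInt (f : LaurentSeries Ω) : Prop := ∀ n : ℤ, f.coeff n ∈ A

/-- coefficientwise congruence modulo the maximal ideal of `A`. -/
def Cong (f g : LaurentSeries Ω) : Prop := ∀ n : ℤ, f.coeff n - g.coeff n ∈ A.nonunits

/-- integral with nonzero reduction. -/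
def IsPrim (f : LaurentSeries Ω) : Prop := IsInt A f ∧ ∃ n : ℤ, f.coeff n ∉ A.nonunits

end Integrality

end Fermat.Agent.GR
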